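import Fermat.Agent.Kemnitz.Prime
import Mathlib.Data.Nat.Factorization.Induction

/-!
# Kemnitz's conjecture for every modulus

The property is multiplicative, holds for the primes, and `4 n - 4` elements do not suffice.
-/

set_option autoImplicit false

noncomputable section

open Finset

namespace FA.Kemnitz

/-- Any `4 n - 3` integral points have `n` with centre of gravity congruent to zero. -/
def HasProperty (n : ℕ) : Prop :=
  ∀ (ι : Type) (f : ι → ℤ × ℤ) (s : Finset ι), 4 * n - 3 ≤ #s →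
    ∃ t ⊆ s, #t = n ∧ (n : ℤ) ∣ ∑ i ∈ t, (f i).1 ∧ (n : ℤ) ∣ ∑ i ∈ t, (f i).2

theorem hasProperty_prime {p : ℕ} (hp : p.Prime) : HasProperty p := by
  classical
  have := Fact.mk hp
  intro ι f s hs
  obtain ⟨X, hXs, hX⟩ := exists_subset_card_eq hs
  let g : ι → ZMod p × ZMod p := fun i => (((f i).1 : ZMod p), ((f i).2 : ZMod p))
  suffices h : ∃ t ⊆ X, #t = p ∧ ∑ i ∈ t, g i = 0 by
    obtain ⟨t, htX, hc, h0⟩ := h
    rw [Prod.ext_iff, Prod.fst_sum, Prod.snd_sum] at h0
    refine ⟨t, htX.trans hXs, hc, ?_, ?_⟩ <;> rw [← ZMod.intCast_zmod_eq_zero_iff_dvd, Int.cast_sum]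
    · exact h0.1
    · exact h0.2
  rcases eq_or_ne p 2 with rfl | h2
  · obtain ⟨a, ha, b, hb, hab, he⟩ := exists_ne_map_eq_of_card_lt_of_maps_to
      (t := (univ : Finset (ZMod 2 × ZMod 2))) (f := g)
      (show #(univ : Finset (ZMod 2 × ZMod 2)) < #X by simp [hX]) (fun i _ => mem_univ _)
    refine ⟨{a, b}, by simp [insert_subset_iff, ha, hb], card_pair hab, ?_⟩
    rw [sum_pair hab, he]
    ext <;> exact CharTwo.add_self_eq_zero _
  · obtain ⟨t, ht⟩ := card_ne_zero.1 (kemnitz_prime (f := g) h2 hX)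
    rw [mem_filter, mem_powersetCard] at ht
    exact ⟨t, ht.1.1, ht.1.2, ht.2⟩

theorem exists_disjoint {m q : ℕ} (hq : HasProperty q) {ι : Type} [DecidableEq ι]
    (f : ι → ℤ × ℤ) (s : Finset ι) (hs : 4 * (m * q) - 3 ≤ #s) :
    ∀ j, j ≤ 4 * m - 3 → ∃ T : Fin j → Finset ι, (∀ a b, a ≠ b → Disjoint (T a) (T b)) ∧
      ∀ a, T a ⊆ s ∧ #(T a) = q ∧ (q : ℤ) ∣ ∑ i ∈ T a, (f i).1 ∧ (q : ℤ) ∣ ∑ i ∈ T a, (f i).2 := by
  intro j
  induction j with
  | zero => exact fun _ => ⟨Fin.elim0, fun a => a.elim0, fun a => a.elim0⟩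
  | succ j ih =>
    intro hj
    obtain ⟨T, hd, hT⟩ := ih (j.le_succ.trans hj)
    have hU : #(univ.biUnion T) ≤ j * q := by
      refine card_biUnion_le.trans ((sum_le_card_nsmul univ _ q fun a _ => (hT a).2.1.le).trans ?_)
      simp
    have hrest : 4 * q - 3 ≤ #(s \ univ.biUnion T) := by
      have h1 := le_card_sdiff (univ.biUnion T) s
      have h2 : (j + 4) * q ≤ 4 * m * q := Nat.mul_le_mul_right q (by omega)
      rw [add_mul, mul_assoc] at h2
      omega
    obtain ⟨t, ht, hc, h1, h2⟩ := hq ι f _ hrest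
    have htd : ∀ a, Disjoint t (T a) := fun a =>
      (disjoint_of_subset_left ht sdiff_disjoint).mono_right (subset_biUnion_of_mem T (mem_univ a))
    refine ⟨Fin.cons t T, fun a b => ?_, Fin.cases ?_ ?_⟩
    · cases a using Fin.cases <;> cases b using Fin.cases <;> intro hab
      · exact absurd rfl hab
      · simpa using htd _
      · simpa using (htd _).symm
      · simpa using hd _ _ fun h => hab (congrArg Fin.succ h)
    · simpa using ⟨ht.trans sdiff_subset, hc, h1, h2⟩
    · simpa using hT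

theorem hasProperty_mul {m q : ℕ} (hm : HasProperty m) (hq : HasProperty q) :
    HasProperty (m * q) := by
  classical
  intro ι f s hs
  obtain ⟨T, hd, hT⟩ := exists_disjoint hq f s hs (4 * m - 3) le_rfl
  obtain ⟨u, -, hu, h1, h2⟩ := hm (Fin (4 * m - 3))
    (fun a => ((∑ i ∈ T a, (f i).1) / q, (∑ i ∈ T a, (f i).2) / q)) univ (by simp)
  refine ⟨u.biUnion T, biUnion_subset.2 fun a _ => (hT a).1, ?_, ?_, ?_⟩
  · rw [card_biUnion fun a _ b _ hab => hd a b hab, sum_congr rfl fun a _ => (hT a).2.1, sum_const,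
      smul_eq_mul, hu]
  all_goals rw [sum_biUnion fun a _ b _ hab => hd a b hab, Nat.cast_mul]
  · rw [sum_congr rfl fun a _ => (Int.ediv_mul_cancel (hT a).2.2.1).symm, ← sum_mul]
    exact mul_dvd_mul_right h1 _
  · rw [sum_congr rfl fun a _ => (Int.ediv_mul_cancel (hT a).2.2.2).symm, ← sum_mul]
    exact mul_dvd_mul_right h2 _

theorem hasProperty_all (n : ℕ) : HasProperty n := by
  induction n using induction_on_primes with
  | zero => exact fun ι f s _ => ⟨∅, empty_subset s, card_empty, by simp, by simp⟩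
  | one =>
    intro ι f s hs
    obtain ⟨a, ha⟩ := card_pos.1 (show 0 < #s by omega)
    exact ⟨{a}, singleton_subset_iff.2 ha, card_singleton a, one_dvd _, one_dvd _⟩
  | prime_mul p m hp hm => exact hasProperty_mul (hasProperty_prime hp) hm

/-- Four residues taken `n - 1` times each. -/
theorem lower_bound {n : ℕ} (hn : 1 ≤ n) (t : Finset (Fin 4 × Fin (n - 1))) (ht : #t = n) :
    ∑ x ∈ t, (![(0, 0), (1, 0), (0, 1), (1, 1)] : Fin 4 → ZMod n × ZMod n) x.1 ≠ 0 := by
  classical
  intro h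
  have hle : ∀ c : Fin 4, #{x ∈ t | x.1 = c} ≤ n - 1 := fun c => by
    refine le_trans (card_le_card_of_injOn Prod.snd (t := univ) (fun x _ => mem_univ _)
      fun x hx y hy hxy => ?_) (by simp)
    simp only [coe_filter, Set.mem_ofPred_eq] at hx hy
    exact Prod.ext (hx.2.trans hy.2.symm) hxy
  have hsum : #t = ∑ c : Fin 4, #{x ∈ t | x.1 = c} :=
    card_eq_sum_card_fiberwise fun x _ => mem_univ _
  rw [← sum_fiberwise t (fun x => x.1)] at h
  rw [sum_congr rfl fun c _ => sum_congr rfl fun x (hx : x ∈ t.filter fun x => x.1 = c) =>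
    congrArg _ (mem_filter.1 hx).2] at h
  simp only [sum_const, Fin.sum_univ_four] at h hsum
  simp only [Prod.ext_iff, Prod.fst_add, Prod.snd_add, Prod.smul_fst, Prod.smul_snd,
    Matrix.cons_val] at h
  simp only [nsmul_eq_mul, mul_zero, mul_one, zero_add, add_zero, Prod.fst_zero, Prod.snd_zero,
    ← Nat.cast_add, ZMod.natCast_eq_zero_iff] at h
  obtain ⟨⟨x, hx⟩, y, hy⟩ := h
  have := hle 0
  have := hle 1
  have := hle 2
  have := hle 3
  have hx2 : x < 2 := by nlinarith
  have hy2 : y < 2 := by nlinarith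
  interval_cases x <;> interval_cases y <;> omega

end FA.Kemnitz

end
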