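import Mathlib.Algebra.BigOperators.Ring.Finset
import Mathlib.Data.Finset.Option
import Mathlib.Data.Nat.Choose.Lucas
import Mathlib.Algebra.Field.ZMod
import Mathlib.FieldTheory.Finite.Basic
import Mathlib.Tactic

/-!
# Kemnitz's conjecture modulo a prime

Reiher's proof: signed counts of zero sums vanish modulo `p` because a product of fewer linear
forms than variables has vanishing alternating sum over the subsets.
-/

set_option autoImplicit false

noncomputable section

open Finset

namespace FA.Kemnitz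

variable {ι R : Type*} [DecidableEq ι] [CommRing R]

/-- The alternating sum of a product of fewer linear forms than variables vanishes. -/
theorem alternating_prod_eq_zero {κ : Type*} [Fintype κ] [DecidableEq κ] (s : Finset ι)
    (hκ : Fintype.card κ < #s) (h : κ → ι → R) :
    ∑ t ∈ s.powerset, (-1 : R) ^ #t * ∏ j, ∑ i ∈ t, h j i = 0 := by
  have e : ∀ t ∈ s.powerset, (-1 : R) ^ #t * ∏ j, ∑ i ∈ t, h j i =
      ∑ φ ∈ Fintype.piFinset fun _ : κ => s,
        if univ.image φ ⊆ t then (-1 : R) ^ #t * ∏ j, h j (φ j) else 0 := by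
    intro t ht
    rw [prod_univ_sum, mul_sum, ← sum_filter]
    refine sum_congr ?_ fun _ _ => rfl
    ext φ
    simp only [Fintype.mem_piFinset, mem_filter, image_subset_iff, mem_univ, true_implies]
    exact ⟨fun h' => ⟨fun j => mem_powerset.1 ht (h' j), h'⟩, fun h' => h'.2⟩
  rw [sum_congr rfl e, sum_comm]
  refine sum_eq_zero fun φ hφ => ?_
  rw [← sum_filter]
  obtain ⟨a, has, ha⟩ : ∃ a ∈ s, a ∉ univ.image φ := exists_mem_notMem_of_card_lt_card
    ((card_image_le.trans_eq card_univ).trans_lt hκ)
  refine sum_involution (fun t _ => if a ∈ t then t.erase a else insert a t) ?_ ?_ ?_ ?_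
  · intro t _
    by_cases hat : a ∈ t
    · rw [if_pos hat, ← card_erase_add_one hat, pow_succ]
      ring
    · rw [if_neg hat, card_insert_of_notMem hat, pow_succ]
      ring
  · intro t _ _ he
    by_cases hat : a ∈ t
    · rw [if_pos hat] at he
      exact notMem_erase a t (by rw [he]; exact hat)
    · rw [if_neg hat] at he
      exact hat (he ▸ mem_insert_self a t)
  · intro t ht
    rw [mem_filter, mem_powerset] at ht ⊢
    by_cases hat : a ∈ t
    · rw [if_pos hat]
      exact ⟨(erase_subset a t).trans ht.1, fun x hx =>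
        mem_erase.2 ⟨fun hxa => ha (hxa ▸ hx), ht.2 hx⟩⟩
    · rw [if_neg hat]
      exact ⟨insert_subset has ht.1, ht.2.trans (subset_insert a t)⟩
  · intro t _
    by_cases hat : a ∈ t
    · simp [hat, insert_erase hat]
    · simp [hat, erase_insert hat]

variable {p : ℕ} [Fact p.Prime]

/-- The alternating count of the zero sums of vectors vanishes. -/
theorem alternating_zero_sums (s : Finset ι) (g : ι → Fin 3 → ZMod p) (hs : 3 * (p - 1) < #s) :
    ∑ t ∈ s.powerset, (if ∀ c, ∑ i ∈ t, g i c = 0 then (-1 : ZMod p) ^ #t else 0) = 0 := by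
  have e : ∀ t : Finset ι, (if ∀ c, ∑ i ∈ t, g i c = 0 then (-1 : ZMod p) ^ #t else 0) =
      ∑ S ∈ (univ : Finset (Fin 3)).powerset, (-1) ^ #S *
        ((-1) ^ #t * ∏ j : {c // c ∈ S} × Fin (p - 1), ∑ i ∈ t, g i j.1) := by
    intro t
    have e1 : (if ∀ c, ∑ i ∈ t, g i c = 0 then (1 : ZMod p) else 0) =
        ∏ c, (-(∑ i ∈ t, g i c) ^ (p - 1) + 1) := by
      split_ifs with h
      · simp [h, Nat.sub_ne_zero_of_lt (Fact.out : p.Prime).one_lt]
      · push Not at h
        obtain ⟨c, hc⟩ := h
        rw [prod_eq_zero (mem_univ c) (by rw [ZMod.pow_card_sub_one_eq_one hc, neg_add_cancel])]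
    rw [← mul_boole, eq_comm]
    rw [mul_comm, show (if ∀ c, ∑ i ∈ t, g i c = 0 then (1 : ZMod p) else 0) * (-1) ^ #t =
      (-1) ^ #t * ∏ c, (-(∑ i ∈ t, g i c) ^ (p - 1) + 1) by rw [e1, mul_comm], prod_add, mul_sum]
    refine sum_congr rfl fun S _ => ?_
    rw [Fintype.prod_prod_type, prod_const_one, mul_one, prod_neg, mul_left_comm]
    congr 2
    simp only [prod_const, card_univ, Fintype.card_fin]
    exact prod_coe_sort S fun c => (∑ i ∈ t, g i c) ^ (p - 1)
  rw [sum_congr rfl fun t _ => e t, sum_comm]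
  refine sum_eq_zero fun S _ => ?_
  rw [← mul_sum]
  refine mul_eq_zero_of_right _ (alternating_prod_eq_zero s ?_
    fun (j : {c // c ∈ S} × Fin (p - 1)) i => g i j.1)
  rw [Fintype.card_prod, Fintype.card_coe, Fintype.card_fin]
  have h3 : #S ≤ 3 := (card_le_univ S).trans_eq (Fintype.card_fin 3)
  calc #S * (p - 1) ≤ 3 * (p - 1) := Nat.mul_le_mul_right _ h3
    _ < #s := hs

variable (f : ι → ZMod p × ZMod p)

/-- The number of selections of `k` terms with sum zero. -/
def count (k : ℕ) (s : Finset ι) : ℕ := #{t ∈ s.powersetCard k | ∑ i ∈ t, f i = 0}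

omit [DecidableEq ι] in
theorem count_zero (s : Finset ι) : count f 0 s = 1 := by
  simp [count, powersetCard_zero, filter_singleton]

omit [DecidableEq ι] in
theorem count_eq_zero {k : ℕ} {s : Finset ι} (h : #s < k) : count f k s = 0 := by
  rw [count, powersetCard_eq_empty.2 h, filter_empty, card_empty]

omit [DecidableEq ι] in
theorem sum_powerset_count (s : Finset ι) (P : ℕ → Prop) [DecidablePred P] :
    ∑ t ∈ s.powerset, (if P #t ∧ ∑ i ∈ t, f i = 0 then (-1 : ZMod p) ^ #t else 0) =
      ∑ k ∈ (range (#s + 1)).filter P, (-1) ^ k * (count f k s : ZMod p) := by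
  rw [sum_powerset, sum_filter]
  refine sum_congr rfl fun k _ => ?_
  split_ifs with hk
  · rw [count, card_filter, Nat.cast_sum, mul_sum]
    refine sum_congr rfl fun t ht => ?_
    rw [(mem_powersetCard.1 ht).2]
    simp [hk]
  · exact sum_eq_zero fun t ht => if_neg fun h => hk ((mem_powersetCard.1 ht).2 ▸ h.1)

theorem filter_dvd_range {m e : ℕ} (he : e < p) (hm : m + e < 4 * p) :
    (range (m + 1)).filter (fun k => p ∣ k + e) =
      (({0, p, 2 * p, 3 * p} : Finset ℕ).filter fun k => e ≤ k ∧ k - e ≤ m).image (· - e) := by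
  ext k
  simp only [mem_filter, mem_range, mem_image, mem_insert, mem_singleton]
  constructor
  · rintro ⟨hk, j, hj⟩
    have hj4 : j < 4 := by
      by_contra! h
      have := Nat.mul_le_mul_left p h
      omega
    refine ⟨p * j, ⟨?_, by omega, by omega⟩, by omega⟩
    interval_cases j <;> omega
  · rintro ⟨x, ⟨hx, h1, h2⟩, rfl⟩
    refine ⟨by omega, ?_⟩
    rw [Nat.sub_add_cancel h1]
    rcases hx with rfl | rfl | rfl | rfl
    exacts [dvd_zero _, dvd_refl _, dvd_mul_left _ _, dvd_mul_left _ _]

variable {f}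

omit [DecidableEq ι] in
theorem zero_sums_iff (t : Finset ι) (e : ι → ZMod p) (c₀ : ℕ) (h : ∑ i ∈ t, e i = (c₀ : ZMod p)) :
    (∀ c, ∑ i ∈ t, (![e i, (f i).1, (f i).2] : Fin 3 → ZMod p) c = 0) ↔
      p ∣ c₀ ∧ ∑ i ∈ t, f i = 0 := by
  rw [Prod.ext_iff, Prod.fst_sum, Prod.snd_sum, ← ZMod.natCast_eq_zero_iff, ← h]
  simp [Fin.forall_fin_succ]

/-- The first relation. -/
theorem relation_one {s : Finset ι} (h1 : 3 * p - 2 ≤ #s) :
    ∑ k ∈ (range (#s + 1)).filter (p ∣ ·), (-1) ^ k * (count f k s : ZMod p) = 0 := by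
  rw [← sum_powerset_count f s (p ∣ ·)]
  refine Eq.trans (sum_congr rfl fun t _ => ?_)
    (alternating_zero_sums s (fun i => ![1, (f i).1, (f i).2])
      (by have := (Fact.out : p.Prime).two_le; omega))
  exact if_congr (zero_sums_iff t _ #t (by simp)).symm rfl rfl

/-- The second relation, from one more variable. -/
theorem relation_two {s : Finset ι} (h1 : 3 * p - 3 ≤ #s) :
    (∑ k ∈ (range (#s + 1)).filter (p ∣ ·), (-1) ^ k * (count f k s : ZMod p)) -
      ∑ k ∈ (range (#s + 1)).filter (fun k => p ∣ k + 1), (-1) ^ k * (count f k s : ZMod p) =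
        0 := by
  classical
  rw [← sum_powerset_count f s (p ∣ ·), ← sum_powerset_count f s (fun k => p ∣ k + 1)]
  have h := alternating_zero_sums (insertNone s)
    (fun o : Option ι => o.elim ![1, 0, 0] fun i => ![(1 : ZMod p), (f i).1, (f i).2])
    (by rw [card_insertNone]; have := (Fact.out : p.Prime).two_le; omega)
  rw [show insertNone s = insert none (s.map Function.Embedding.some) by
      ext o; cases o <;> simp,
    sum_powerset_insert (by simp)] at h
  rw [sub_eq_add_neg, ← sum_neg_distrib]
  refine Eq.trans ?_ h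
  have hmap : (s.map Function.Embedding.some).powerset =
      s.powerset.map ⟨Finset.map Function.Embedding.some, map_injective _⟩ := by
    ext t
    simp only [mem_powerset, mem_map, Function.Embedding.coeFn_mk, subset_map_iff, eq_comm]
  rw [hmap, sum_map, sum_map]
  refine congr_arg₂ (· + ·) (sum_congr rfl fun t _ => ?_) (sum_congr rfl fun t _ => ?_)
  · simp only [Function.Embedding.coeFn_mk, card_map, sum_map]
    exact if_congr (zero_sums_iff t (fun _ => (1 : ZMod p)) #t (by simp)).symm rfl rfl
  · simp only [Function.Embedding.coeFn_mk]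
    rw [card_insert_of_notMem (by simp), card_map, pow_succ, mul_neg, mul_one]
    rw [apply_ite (Neg.neg : ZMod p → ZMod p), neg_zero]
    refine if_congr ?_ rfl rfl
    simp only [← ZMod.natCast_eq_zero_iff,
      sum_insert (show (none : Option ι) ∉ t.map Function.Embedding.some by simp),
      sum_map, Fin.forall_fin_succ, Prod.ext_iff, Prod.fst_sum, Prod.snd_sum]
    simp [add_comm]

theorem count_compl {s : Finset ι} {k l : ℕ} (h : k + l = #s) :
    #{t ∈ s.powersetCard k | ∑ i ∈ t, f i = 0} =
      #{t ∈ s.powersetCard l | ∑ i ∈ t, f i = ∑ i ∈ s, f i} := by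
  refine card_nbij' (s \ ·) (s \ ·) ?_ ?_ ?_ ?_ <;> intro t ht <;>
    simp only [mem_coe, mem_filter, mem_powersetCard] at ht ⊢
  · have := sum_sdiff (f := f) ht.1.1
    rw [ht.2, add_zero] at this
    exact ⟨⟨sdiff_subset, by rw [card_sdiff_of_subset ht.1.1]; omega⟩, this⟩
  · have := sum_sdiff (f := f) ht.1.1
    rw [ht.2] at this
    exact ⟨⟨sdiff_subset, by rw [card_sdiff_of_subset ht.1.1]; omega⟩, by simpa using this⟩
  · exact Finset.sdiff_sdiff_eq_self ht.1.1
  · exact Finset.sdiff_sdiff_eq_self ht.1.1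

theorem choose_lucas {a r : ℕ} (hr : r < p) : ((a * p + r).choose p : ZMod p) = a := by
  have hp := (Fact.out : p.Prime).pos
  have h := Choose.choose_modEq_choose_mod_mul_choose_div_nat (n := a * p + r) (k := p) (p := p)
  rw [Nat.mod_self, Nat.choose_zero_right, one_mul, Nat.div_self hp, Nat.choose_one_right,
    add_comm, Nat.add_mul_div_right _ _ hp, Nat.div_eq_of_lt hr, zero_add] at h
  rw [add_comm, (ZMod.natCast_eq_natCast_iff _ _ _).2 h]

/-- **Kemnitz's conjecture** modulo an odd prime. -/
theorem kemnitz_prime (hp : p ≠ 2) {X : Finset ι} (hX : #X = 4 * p - 3) : count f p X ≠ 0 := by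
  intro h0
  have hp3 : 3 ≤ p := by have := (Fact.out : p.Prime).two_le; omega
  have hodd : Odd p := (Fact.out : p.Prime).odd_of_ne_two hp
  have s1 : (-1 : ZMod p) ^ p = -1 := hodd.neg_one_pow
  have s2 : (-1 : ZMod p) ^ (2 * p) = 1 := by rw [pow_mul, neg_one_sq, one_pow]
  have s3 : (-1 : ZMod p) ^ (3 * p) = -1 := by rw [pow_mul', s1]; ring
  have sm : ∀ j, p ≤ j → (-1 : ZMod p) ^ (j - 1) = -(-1) ^ j := fun j hj => by
    nth_rw 2 [← Nat.sub_add_cancel (show 1 ≤ j by omega)]
    rw [pow_succ]
    ring
  have hsub : ∀ t ⊆ X, count f p t = 0 := fun t ht => Nat.eq_zero_of_le_zero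
    (h0 ▸ card_le_card (filter_subset_filter _ (powersetCard_mono ht)))
  have hsmall : ∀ t ⊆ X, 3 * p - 2 ≤ #t → #t < 3 * p → (count f (2 * p) t : ZMod p) = -1 := by
    intro t ht h1 h2
    have h := relation_one (f := f) (s := t) h1
    have h4 := filter_dvd_range (p := p) (m := #t) (e := 0) (by omega) (by omega)
    simp only [add_zero] at h4
    rw [h4, show ({0, p, 2 * p, 3 * p} : Finset ℕ).filter (fun k => 0 ≤ k ∧ k - 0 ≤ #t) =
      {0, p, 2 * p} by ext k; simp only [mem_filter, mem_insert, mem_singleton]; omega] at h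
    simp only [Nat.sub_zero, image_id', sum_insert (show 0 ∉ ({p, 2 * p} : Finset ℕ) by
      simp only [mem_insert, mem_singleton]; omega), sum_insert (show p ∉ ({2 * p} : Finset ℕ) by
      simp only [mem_singleton]; omega), sum_singleton, hsub t ht, count_zero, s2] at h
    push_cast at h
    linear_combination h
  have h3p : count f (3 * p) X = 0 := by
    rw [count, card_eq_zero, filter_eq_empty_iff]
    intro t ht hsum
    rw [mem_powersetCard] at ht
    obtain ⟨x, hx⟩ := card_pos.1 (show 0 < #t by omega)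
    have he : #(t.erase x) = 3 * p - 1 := by rw [card_erase_of_mem hx]; omega
    have h2 := hsmall (t.erase x) ((erase_subset x t).trans ht.1) (by omega) (by omega)
    have hne : count f (2 * p) (t.erase x) ≠ 0 := fun h => by
      rw [h, Nat.cast_zero] at h2
      exact one_ne_zero (α := ZMod p) (by linear_combination h2)
    obtain ⟨u, hu⟩ := card_ne_zero.1 hne
    rw [mem_filter, mem_powersetCard] at hu
    have hut := hu.1.1.trans (erase_subset x t)
    refine (card_pos.2 ⟨t \ u, mem_filter.2 ⟨mem_powersetCard.2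
      ⟨sdiff_subset.trans ht.1, ?_⟩, ?_⟩⟩).ne' h0
    · rw [card_sdiff_of_subset hut]
      omega
    · have := sum_sdiff (f := f) hut
      rwa [hu.2, add_zero, hsum] at this
  have hA := filter_dvd_range (p := p) (m := #X) (e := 0) (by omega) (by omega)
  simp only [add_zero] at hA
  rw [show ({0, p, 2 * p, 3 * p} : Finset ℕ).filter (fun k => 0 ≤ k ∧ k - 0 ≤ #X) =
    {0, p, 2 * p, 3 * p} by ext k; simp only [mem_filter, mem_insert, mem_singleton]; omega] at hA
  have hB := filter_dvd_range (p := p) (m := #X) (e := 1) (by omega) (by omega)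
  rw [show ({0, p, 2 * p, 3 * p} : Finset ℕ).filter (fun k => 1 ≤ k ∧ k - 1 ≤ #X) =
    {p, 2 * p, 3 * p} by ext k; simp only [mem_filter, mem_insert, mem_singleton]; omega] at hB
  have e1 := relation_one (f := f) (s := X) (by omega)
  have e2 := relation_two (f := f) (s := X) (by omega)
  rw [e1, hB, image_insert, image_insert, image_singleton, zero_sub, neg_eq_zero,
    sum_insert (by simp only [mem_insert, mem_singleton]; omega),
    sum_insert (by simp only [mem_singleton]; omega), sum_singleton,
    sm p le_rfl, sm (2 * p) (by omega), sm (3 * p) (by omega), s1, s2, s3] at e2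
  simp only [hA, Nat.sub_zero, image_id',
    sum_insert (show 0 ∉ ({p, 2 * p, 3 * p} : Finset ℕ) by
      simp only [mem_insert, mem_singleton]; omega),
    sum_insert (show p ∉ ({2 * p, 3 * p} : Finset ℕ) by
      simp only [mem_insert, mem_singleton]; omega),
    sum_insert (show 2 * p ∉ ({3 * p} : Finset ℕ) by simp only [mem_singleton]; omega),
    sum_singleton, h0, h3p, count_zero, s2, pow_zero] at e1
  push_cast at e1
  -- the third relation
  have e3 : (3 : ZMod p) - 2 * count f (p - 1) X + (count f (2 * p - 1) X : ZMod p) +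
      (count f (2 * p) X : ZMod p) = 0 := by
    have hI : ∀ I ∈ X.powersetCard (3 * p - 3), (count f 0 I : ZMod p) - count f (p - 1) I -
        count f p I + count f (2 * p - 1) I + count f (2 * p) I = 0 := by
      intro I hI
      rw [mem_powersetCard] at hI
      have h := relation_two (f := f) (s := I) (by omega)
      have hA' := filter_dvd_range (p := p) (m := #I) (e := 0) (by omega) (by omega)
      simp only [add_zero] at hA'
      rw [hA', filter_dvd_range (p := p) (m := #I) (e := 1) (by omega) (by omega),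
        show ({0, p, 2 * p, 3 * p} : Finset ℕ).filter (fun k => 0 ≤ k ∧ k - 0 ≤ #I) =
          {0, p, 2 * p} by ext k; simp only [mem_filter, mem_insert, mem_singleton]; omega,
        show ({0, p, 2 * p, 3 * p} : Finset ℕ).filter (fun k => 1 ≤ k ∧ k - 1 ≤ #I) =
          {p, 2 * p} by ext k; simp only [mem_filter, mem_insert, mem_singleton]; omega] at h
      simp only [Nat.sub_zero, image_insert, image_singleton,
        sum_insert (show 0 ∉ ({p, 2 * p} : Finset ℕ) by
          simp only [mem_insert, mem_singleton]; omega),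
        sum_insert (show p ∉ ({2 * p} : Finset ℕ) by simp only [mem_singleton]; omega),
        sum_insert (show p - 1 ∉ ({2 * p - 1} : Finset ℕ) by simp only [mem_singleton]; omega),
        sum_singleton, s1, s2, sm p le_rfl, sm (2 * p) (by omega), pow_zero] at h
      linear_combination h
    have hdc : ∀ k, k ≤ 3 * p - 3 → ∑ I ∈ X.powersetCard (3 * p - 3), (count f k I : ZMod p) =
        ((4 * p - 3 - k).choose p : ZMod p) * count f k X := by
      intro k hk
      rw [← Nat.cast_sum, ← Nat.cast_mul]
      congr 1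
      simp only [count, card_filter]
      have e : ∀ I ∈ X.powersetCard (3 * p - 3), ∑ t ∈ I.powersetCard k,
          (if ∑ i ∈ t, f i = 0 then 1 else 0) = ∑ t ∈ X.powersetCard k,
            if t ⊆ I then (if ∑ i ∈ t, f i = 0 then 1 else 0) else 0 := fun I hI => by
        rw [← sum_filter (p := (· ⊆ I))]
        refine sum_congr ?_ fun _ _ => rfl
        ext t
        simp only [mem_powersetCard, mem_filter]
        exact ⟨fun h => ⟨⟨h.1.trans (mem_powersetCard.1 hI).1, h.2⟩, h.1⟩, fun h => ⟨h.2, h.1.2⟩⟩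
      rw [sum_congr rfl e, sum_comm, mul_sum]
      refine sum_congr rfl fun t ht => ?_
      rw [mem_powersetCard] at ht
      rw [← sum_filter (p := (t ⊆ ·)), sum_const, smul_eq_mul,
        card_filter_powersetCard_subset _ _ _ ht.1 (ht.2.trans_le hk), ht.2, hX,
        ← Nat.choose_symm (show 3 * p - 3 - k ≤ 4 * p - 3 - k by omega),
        show 4 * p - 3 - k - (3 * p - 3 - k) = p by omega]
    have hsum := sum_eq_zero hI
    simp only [sum_add_distrib, sum_sub_distrib] at hsum
    rw [hdc 0 (by omega), hdc (p - 1) (by omega), hdc p (by omega), hdc (2 * p - 1) (by omega),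
      hdc (2 * p) (by omega), count_zero, h0,
      show 4 * p - 3 - 0 = 3 * p + (p - 3) by omega,
      show 4 * p - 3 - (p - 1) = 2 * p + (p - 2) by omega,
      show 4 * p - 3 - (2 * p - 1) = 1 * p + (p - 2) by omega,
      show 4 * p - 3 - 2 * p = 1 * p + (p - 3) by omega,
      choose_lucas (show p - 3 < p by omega), choose_lucas (show p - 2 < p by omega),
      choose_lucas (show p - 2 < p by omega), choose_lucas (show p - 3 < p by omega)] at hsum
    push_cast at hsum
    linear_combination hsum
  -- the partitions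
  have e4 : (count f (p - 1) X : ZMod p) = count f (3 * p - 1) X := by
    have hL : ∀ A ∈ {t ∈ X.powersetCard (p - 1) | ∑ i ∈ t, f i = 0},
        (count f (2 * p) (X \ A) : ZMod p) = -1 := fun A hA => by
      rw [mem_filter, mem_powersetCard] at hA
      have := card_sdiff_of_subset hA.1.1
      exact hsmall _ sdiff_subset (by omega) (by omega)
    have hR : ∀ B ∈ {t ∈ X.powersetCard (p - 2) | ∑ i ∈ t, f i = ∑ i ∈ X, f i},
        (count f (2 * p) (X \ B) : ZMod p) = -1 := fun B hB => by
      rw [mem_filter, mem_powersetCard] at hB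
      have := card_sdiff_of_subset hB.1.1
      exact hsmall _ sdiff_subset (by omega) (by omega)
    have hswap : ∀ (k : ℕ) (σ : ZMod p × ZMod p),
        ∑ A ∈ {t ∈ X.powersetCard k | ∑ i ∈ t, f i = σ}, (count f (2 * p) (X \ A) : ZMod p) =
          ∑ C ∈ {t ∈ X.powersetCard (2 * p) | ∑ i ∈ t, f i = 0},
            (#{t ∈ (X \ C).powersetCard k | ∑ i ∈ t, f i = σ} : ZMod p) := by
      intro k σ
      rw [← Nat.cast_sum, ← Nat.cast_sum]
      congr 1
      simp only [count, card_filter, sum_filter]
      simp only [← sum_filter, sum_const, smul_eq_mul, mul_one]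
      simp only [← card_sigma]
      refine card_nbij' (fun x => ⟨x.2, x.1⟩) (fun x => ⟨x.2, x.1⟩) ?_ ?_
        (fun _ _ => rfl) (fun _ _ => rfl) <;> intro x hx <;>
        simp only [mem_coe, mem_sigma, mem_filter, mem_powersetCard, subset_sdiff] at hx ⊢ <;>
        exact ⟨⟨⟨hx.2.1.1.1, hx.2.1.2⟩, hx.2.2⟩, ⟨⟨hx.1.1.1, hx.2.1.1.2.symm⟩, hx.1.1.2⟩, hx.1.2⟩
    have hlink : ∀ C ∈ {t ∈ X.powersetCard (2 * p) | ∑ i ∈ t, f i = 0},
        #{t ∈ (X \ C).powersetCard (p - 1) | ∑ i ∈ t, f i = 0} =
          #{t ∈ (X \ C).powersetCard (p - 2) | ∑ i ∈ t, f i = ∑ i ∈ X, f i} := fun C hC => by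
      rw [mem_filter, mem_powersetCard] at hC
      have hs := sum_sdiff (f := f) hC.1.1
      rw [hC.2, add_zero] at hs
      rw [← hs]
      exact count_compl (by rw [card_sdiff_of_subset hC.1.1]; omega)
    have h1 := (sum_congr rfl hL).symm.trans (hswap (p - 1) 0)
    have h2 := (sum_congr rfl hR).symm.trans (hswap (p - 2) (∑ i ∈ X, f i))
    rw [sum_congr rfl fun C hC => congrArg (Nat.cast : ℕ → ZMod p) (hlink C hC), ← h2] at h1
    simp only [sum_neg_distrib, sum_const, nsmul_eq_mul, mul_one, neg_inj] at h1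
    rw [count, count, h1, count_compl (k := 3 * p - 1) (l := p - 2) (by omega)]
  have h2 : (2 : ZMod p) = 0 := by linear_combination e3 + e2 - e1 + e4
  rw [show (2 : ZMod p) = ((2 : ℕ) : ZMod p) by norm_num, ZMod.natCast_eq_zero_iff] at h2
  exact hp ((Nat.prime_dvd_prime_iff_eq Fact.out Nat.prime_two).1 h2)

end FA.Kemnitz

end
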